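/-
S48 node C (IntegralStructure): shared definitions.  Owner: helper228.
-/
import Mathlib

set_option autoImplicit false

namespace Fermat.Agent.S48.IS

open UpperHalfPlane EisensteinSeries

/-- `G_S(z) = ∑_{v ∈ S} (v 0 * z + v 1) ^ (-k)`: the Eisenstein series attached to an arbitrary
set of lattice vectors. -/
noncomputable def eisSet (S : Set (Fin 2 → ℤ)) (k : ℤ) (z : ℍ) : ℂ :=
  ∑' v : S, eisSummand k v z

/-- The vectors `(c, d)` with `c ≡ u` modulo `N`. -/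
def colSet (N : ℕ) (u : ZMod N) : Set (Fin 2 → ℤ) := {v | ((v 0 : ℤ) : ZMod N) = u}

/-- `∑_{c ∣ m, c ≡ u} (m / c) ^ 2 - ∑_{c ∣ m, c ≡ -u} (m / c) ^ 2`. -/
def cB (N : ℕ) (u : ZMod N) (m : ℕ) : ℤ :=
  ∑ c ∈ m.divisors, ((if (c : ZMod N) = u then ((m / c : ℕ) : ℤ) ^ 2 else 0) -
    (if (c : ZMod N) = -u then ((m / c : ℕ) : ℤ) ^ 2 else 0))

end Fermat.Agent.S48.IS
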