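/-
S48 node C (IntegralStructure), block C3 (statements by helper228):
the `q`-expansion of `∑_{c ≡ u (N), d ∈ ℤ} (c z + d) ^ (-3)`.
-/
import Mathlib
import Fermat.Agent.S48.IS.Defs
import Fermat.Agent.Lib.EisensteinChar

set_option autoImplicit false

namespace Fermat.Agent.S48.IS

open UpperHalfPlane hiding I
open EisensteinSeries Complex
open scoped Real Manifold

/-- regrouping a double series over `ℕ+ × ℕ+` according to the product -/
theorem EisQ.hasSum_regroup (ε : ℕ → ℂ) (hε : ∀ c, ‖ε c‖ ≤ 1) {r : ℂ} (hr : ‖r‖ < 1) :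
    Summable (fun p : ℕ+ × ℕ+ => ε p.1 * (p.2 : ℂ) ^ 2 * r ^ (p.1 * p.2 : ℕ)) ∧
    HasSum (fun m : ℕ+ => (∑ c ∈ (m : ℕ).divisors, ε c * (((m : ℕ) / c : ℕ) : ℂ) ^ 2) * r ^ (m : ℕ))
      (∑' c : ℕ+, ∑' n : ℕ+, ε c * (n : ℂ) ^ 2 * r ^ (c * n : ℕ)) := by
  set f : ℕ+ × ℕ+ → ℂ := fun p => ε p.1 * (p.2 : ℂ) ^ 2 * r ^ (p.1 * p.2 : ℕ) with hf
  have hsum : Summable f := by
    refine Summable.of_norm_bounded (summable_prod_mul_pow (𝕜 := ℂ) 2 hr).norm fun p => ?_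
    rw [hf]
    simp only [norm_mul]
    calc ‖ε p.1‖ * ‖(p.2 : ℂ) ^ 2‖ * ‖r ^ (p.1 * p.2 : ℕ)‖
        ≤ 1 * ‖(p.2 : ℂ) ^ 2‖ * ‖r ^ (p.1 * p.2 : ℕ)‖ := by gcongr; exact hε _
      _ = _ := by rw [one_mul]
  refine ⟨hsum, ?_⟩
  have h1 : HasSum f (∑' c : ℕ+, ∑' n : ℕ+, ε c * (n : ℂ) ^ 2 * r ^ (c * n : ℕ)) := by
    rw [← hsum.tsum_prod]
    exact hsum.hasSum
  have h2 := (sigmaAntidiagonalEquivProd.hasSum_iff).mpr h1
  refine h2.sigma fun m => ?_
  have h3 := hasSum_fintype (fun x : (m : ℕ).divisorsAntidiagonal =>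
    (f ∘ sigmaAntidiagonalEquivProd) ⟨m, x⟩)
  convert h3 using 1
  rw [Finset.sum_mul]
  have h4 : ∀ x : (m : ℕ).divisorsAntidiagonal, (f ∘ sigmaAntidiagonalEquivProd) ⟨m, x⟩ =
      ε x.1.1 * (x.1.2 : ℂ) ^ 2 * r ^ (x.1.1 * x.1.2) := fun x => rfl
  simp only [h4]
  rw [Finset.univ_eq_attach,
    (m : ℕ).divisorsAntidiagonal.sum_attach (fun x : ℕ × ℕ => ε x.1 * (x.2 : ℂ) ^ 2 * r ^ (x.1 * x.2)),
    Nat.sum_divisorsAntidiagonal (fun a b => ε a * (b : ℂ) ^ 2 * r ^ (a * b))]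
  refine Finset.sum_congr rfl fun i hi => ?_
  rw [Nat.mul_div_cancel' (Nat.dvd_of_mem_divisors hi)]

/-- the inner sum over `d`, positive `c` -/
theorem EisQ.tsum_row_pos (c : ℕ+) (z : ℍ) :
    ∑' d : ℤ, eisSummand 3 ![(c : ℤ), d] z =
      ((-2 * π * I) ^ 3 / 2) * ∑' n : ℕ+, (n : ℂ) ^ 2 * cexp (2 * π * I * z) ^ (c * n : ℕ) := by
  have H := qExpansion_identity_pnat (k := 2) (by norm_num) ⟨c * z, by simpa using z.2⟩
  have e1 : ∀ d : ℤ, eisSummand 3 ![(c : ℤ), d] z = 1 / ((c * z : ℂ) + d) ^ (2 + 1) := by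
    intro d
    simp only [eisSummand, Matrix.cons_val_zero, Matrix.cons_val_one, Matrix.cons_val_fin_one]
    rw [zpow_neg, one_div]
    norm_cast
  have e2 : ∀ n : ℕ+, (n : ℂ) ^ 2 * cexp (2 * π * I * z) ^ (c * n : ℕ) =
      (n : ℂ) ^ 2 * cexp (2 * π * I * (c * z : ℂ)) ^ (n : ℕ) := by
    intro n
    rw [← Complex.exp_nat_mul, ← Complex.exp_nat_mul]
    congr 2
    push_cast
    ring
  rw [tsum_congr e1, tsum_congr e2]
  simpa using H

/-- the inner sum over `d`, negative `c` -/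
theorem EisQ.tsum_row_neg (c : ℤ) (z : ℍ) :
    ∑' d : ℤ, eisSummand 3 ![-c, d] z = - ∑' d : ℤ, eisSummand 3 ![c, d] z := by
  rw [← tsum_neg, ← (Equiv.neg ℤ).tsum_eq]
  refine tsum_congr fun d => ?_
  simp only [eisSummand, Matrix.cons_val_zero, Matrix.cons_val_one, Matrix.cons_val_fin_one,
    Equiv.neg_apply]
  have : ((-c : ℤ) : ℂ) * z + ((-d : ℤ) : ℂ) = -((c : ℂ) * z + d) := by push_cast; ring
  rw [this, zpow_neg, zpow_neg, Odd.neg_zpow ⟨1, by norm_num⟩, inv_neg]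

/-- the sign attached to the residue class of `c` -/
noncomputable def EisQ.eps (N : ℕ) (u : ZMod N) (c : ℕ) : ℂ :=
  (if (c : ZMod N) = u then 1 else 0) - (if (c : ZMod N) = -u then 1 else 0)

theorem EisQ.norm_eps_le (N : ℕ) (u : ZMod N) (c : ℕ) : ‖EisQ.eps N u c‖ ≤ 1 := by
  unfold EisQ.eps
  split_ifs <;> simp

theorem EisQ.eisSet_colSet_eq (N : ℕ) [NeZero N] (u : ZMod N) (hu : u ≠ 0) (z : ℍ) :
    eisSet (colSet N u) 3 z = ((-2 * π * I) ^ 3 / 2) *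
      ∑' c : ℕ+, ∑' n : ℕ+, EisQ.eps N u c * (n : ℂ) ^ 2 * cexp (2 * π * I * z) ^ (c * n : ℕ) := by
  classical
  set F : ℤ × ℤ → ℂ :=
    fun p => if ((p.1 : ℤ) : ZMod N) = u then eisSummand 3 ![p.1, p.2] z else 0 with hFdef
  have hF : Summable F := by
    have h0 := summable_prod_eisSummand (k := 3) le_rfl z
    refine Summable.of_norm_bounded h0.norm (fun p => ?_)
    simp only [hFdef]
    split_ifs
    · exact le_rfl
    · simp
  have h1 : eisSet (colSet N u) 3 z = ∑' p, F p := by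
    unfold eisSet
    rw [tsum_subtype (colSet N u) (fun v => eisSummand 3 v z),
      ← (finTwoArrowEquiv ℤ).symm.tsum_eq]
    refine tsum_congr fun p => ?_
    simp [Set.indicator, colSet, hFdef, finTwoArrowEquiv_symm_apply]
  have hf : ∀ c : ℤ, ∑' d, F (c, d) =
      if (c : ZMod N) = u then ∑' d : ℤ, eisSummand 3 ![c, d] z else 0 := by
    intro c
    by_cases h : (c : ZMod N) = u
    · simp [hFdef, h]
    · simp [hFdef, h]
  have hprod := hF.prod
  have hs1 : Summable fun n : ℕ+ => ∑' d, F (((n : ℕ) : ℤ), d) :=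
    hprod.comp_injective (i := fun n : ℕ+ => ((n : ℕ) : ℤ))
      (fun a b h => PNat.coe_injective (Int.ofNat_injective h))
  have hs2 : Summable fun n : ℕ+ => ∑' d, F (-((n : ℕ) : ℤ), d) :=
    hprod.comp_injective (i := fun n : ℕ+ => -((n : ℕ) : ℤ))
      (fun a b h => PNat.coe_injective (Int.ofNat_injective (neg_injective h)))
  rw [h1, hF.tsum_prod, tsum_int_eq_zero_add_tsum_pnat hprod, add_assoc, ← hs1.tsum_add hs2,
    ← tsum_mul_left]
  have h0 : ∑' d, F (0, d) = 0 := by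
    rw [hf 0, if_neg]
    simpa using hu.symm
  rw [h0, zero_add]
  refine tsum_congr fun c => ?_
  rw [hf, hf, EisQ.tsum_row_neg, EisQ.tsum_row_pos]
  have e1 : (((c : ℕ) : ℤ) : ZMod N) = ((c : ℕ) : ZMod N) := by push_cast; rfl
  have e2 : ((-((c : ℕ) : ℤ) : ℤ) : ZMod N) = u ↔ ((c : ℕ) : ZMod N) = -u := by
    push_cast
    exact neg_eq_iff_eq_neg
  simp only [e1, e2, mul_assoc, tsum_mul_left, EisQ.eps]
  split_ifs <;> ring

theorem EisQ.cB_cast (N : ℕ) (u : ZMod N) (m : ℕ) :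
    (cB N u m : ℂ) = ∑ c ∈ m.divisors, EisQ.eps N u c * ((m / c : ℕ) : ℂ) ^ 2 := by
  unfold cB EisQ.eps
  rw [Int.cast_sum]
  refine Finset.sum_congr rfl fun c _ => ?_
  split_ifs <;>
    simp only [Int.cast_sub, Int.cast_pow, Int.cast_natCast, Int.cast_zero] <;> ring

theorem hasSum_eisSet_colSet (N : ℕ) [NeZero N] (u : ZMod N) (hu : u ≠ 0) (z : ℍ) :
    HasSum (fun m : ℕ => ((-2 * π * Complex.I) ^ 3 / 2 * (cB N u m : ℂ)) * cexp (2 * π * Complex.I * z) ^ m)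
      (eisSet (colSet N u) 3 z) := by
  have hq := norm_exp_two_pi_I_lt_one z
  obtain ⟨-, hreg⟩ := EisQ.hasSum_regroup (EisQ.eps N u) (EisQ.norm_eps_le N u) hq
  rw [EisQ.eisSet_colSet_eq N u hu z]
  have h1 := hreg.mul_left ((-2 * π * I) ^ 3 / 2)
  have h2 : HasSum (fun m : ℕ+ => (fun m : ℕ => ((-2 * π * Complex.I) ^ 3 / 2 * (cB N u m : ℂ)) *
      cexp (2 * π * Complex.I * z) ^ m) m) ((-2 * π * I) ^ 3 / 2 *
      ∑' c : ℕ+, ∑' n : ℕ+, EisQ.eps N u c * (n : ℂ) ^ 2 * cexp (2 * π * I * z) ^ (c * n : ℕ)) := by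
    have h5 : (fun m : ℕ+ => (fun m : ℕ => ((-2 * π * Complex.I) ^ 3 / 2 * (cB N u m : ℂ)) *
        cexp (2 * π * Complex.I * z) ^ m) m) = fun i : ℕ+ => (-2 * π * I) ^ 3 / 2 *
        ((∑ c ∈ (i : ℕ).divisors, EisQ.eps N u c * (((i : ℕ) / c : ℕ) : ℂ) ^ 2) *
          cexp (2 * π * I * z) ^ (i : ℕ)) := by
      funext m
      simp only []
      rw [EisQ.cB_cast, mul_assoc]
    rw [h5]
    exact h1
  have h3 := (hasSum_pnat_iff (f := fun m : ℕ => ((-2 * π * Complex.I) ^ 3 / 2 * (cB N u m : ℂ)) *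
      cexp (2 * π * Complex.I * z) ^ m)).mp h2
  have h4 : (cB N u 0 : ℂ) = 0 := by simp [cB]
  simpa [h4] using h3

/-- bridge to the weighted Eisenstein series of `Lib/EisensteinChar` -/
theorem EisQ.eisSet_eq_wEis (S : Set (Fin 2 → ℤ)) (k : ℤ) :
    eisSet S k = Lib.EisensteinChar.wEis (S.indicator 1) k := by
  classical
  funext z
  unfold eisSet Lib.EisensteinChar.wEis
  rw [tsum_subtype S (fun v => eisSummand k v z)]
  refine tsum_congr fun v => ?_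
  by_cases h : v ∈ S <;> simp [Set.indicator, h]

theorem EisQ.norm_indicator_le (S : Set (Fin 2 → ℤ)) (v : Fin 2 → ℤ) :
    ‖(S.indicator 1 : (Fin 2 → ℤ) → ℂ) v‖ ≤ 1 := by
  classical
  by_cases h : v ∈ S <;> simp [Set.indicator, h]

theorem coeff_qExpansion_eisSet_colSet (N : ℕ) [NeZero N] (u : ZMod N) (hu : u ≠ 0) (m : ℕ) :
    (qExpansion 1 (eisSet (colSet N u) 3)).coeff m = (-2 * π * Complex.I) ^ 3 / 2 * (cB N u m : ℂ) := by
  set f : ℍ → ℂ := eisSet (colSet N u) 3 with hf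
  have hs : ∀ τ : ℍ, HasSum (fun m : ℕ => ((-2 * π * Complex.I) ^ 3 / 2 * (cB N u m : ℂ)) •
      Function.Periodic.qParam (1 : ℝ) τ ^ m) (f τ) := by
    intro τ
    have := hasSum_eisSet_colSet N u hu τ
    simpa [Function.Periodic.qParam, smul_eq_mul] using this
  have hhol : MDiff f := by
    rw [hf, EisQ.eisSet_eq_wEis]
    exact Lib.EisensteinChar.wEis_mdifferentiable (EisQ.norm_indicator_le _) le_rfl
  have hbdd : IsBoundedAtImInfty f := by
    rw [hf, EisQ.eisSet_eq_wEis]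
    exact Lib.EisensteinChar.isBoundedAtImInfty_wEis (EisQ.norm_indicator_le _) le_rfl
  have hper : Function.Periodic (f ∘ ofComplex) ((1 : ℝ) : ℂ) := by
    intro w
    by_cases hw : 0 < w.im
    · have hw' : 0 < (w + ((1 : ℝ) : ℂ)).im := by simpa using hw
      simp only [Function.comp_apply, ofComplex_apply_of_im_pos hw, ofComplex_apply_of_im_pos hw']
      refine (hs ⟨_, hw'⟩).unique ?_
      have hqp : Function.Periodic.qParam (1 : ℝ) (w + ((1 : ℝ) : ℂ)) =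
          Function.Periodic.qParam (1 : ℝ) w := by
        simp only [Function.Periodic.qParam, ofReal_one, div_one]
        rw [mul_add, mul_one, Complex.exp_add, Complex.exp_two_pi_mul_I, mul_one]
      have h6 := hs ⟨w, hw⟩
      simp only at h6 ⊢
      rw [hqp]
      exact h6
    · have hw1 : w.im ≤ 0 := not_lt.mp hw
      have hw' : (w + ((1 : ℝ) : ℂ)).im ≤ 0 := by simpa using hw1
      simp only [Function.comp_apply, ofComplex_apply_of_im_nonpos hw1,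
        ofComplex_apply_of_im_nonpos hw']
  have hfin := @UpperHalfPlane.qExpansion_coeff_unique (ℍ → ℂ) ⟨fun g => g, fun _ _ h => h⟩ 1 f
    (fun m : ℕ => (-2 * π * Complex.I) ^ 3 / 2 * (cB N u m : ℂ)) one_pos
    (analyticAt_cuspFunction_zero one_pos hper hhol hbdd) hs m
  exact hfin.symm

end Fermat.Agent.S48.IS
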