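/-
S48 node C (IntegralStructure), block C2: Eisenstein series attached to an arbitrary set of
lattice vectors.  Everything is deduced from the weighted Eisenstein series of
`Fermat.Agent.Lib.EisensteinChar` (weight = indicator function of the set).
-/
import Mathlib
import Fermat.Agent.S48.IS.Defs
import Fermat.Agent.Lib.EisensteinChar

set_option autoImplicit false

namespace Fermat.Agent.S48.IS

open UpperHalfPlane ModularForm CongruenceSubgroup EisensteinSeries Matrix Complex
open scoped MatrixGroups Manifold Real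

open Fermat.Agent.Lib.EisensteinChar in
/-- `eisSet` is the weighted Eisenstein series whose weight is the indicator function. -/
theorem eisSet_eq_wEis_indicator (S : Set (Fin 2 → ℤ)) (k : ℤ) :
    eisSet S k = wEis (S.indicator 1) k := by
  funext z
  unfold eisSet wEis
  rw [tsum_subtype S (fun v => eisSummand k v z)]
  refine tsum_congr fun v => ?_
  by_cases hv : v ∈ S
  · simp [hv]
  · simp [hv]

theorem norm_indicator_one_le (S : Set (Fin 2 → ℤ)) (v : Fin 2 → ℤ) :
    ‖(S.indicator 1 : (Fin 2 → ℤ) → ℂ) v‖ ≤ 1 := by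
  by_cases hv : v ∈ S
  · simp [hv]
  · simp [hv]

open Fermat.Agent.Lib.EisensteinChar in
theorem eisSet_slash (S : Set (Fin 2 → ℤ)) (k : ℤ) (γ : SL(2, ℤ)) :
    eisSet S k ∣[k] γ = eisSet ((fun v => v ᵥ* (γ : Matrix (Fin 2) (Fin 2) ℤ)) '' S) k := by
  rw [eisSet_eq_wEis_indicator, eisSet_eq_wEis_indicator, wEis_slash]
  congr 1
  funext v
  have hiff : v ᵥ* ↑(γ⁻¹) ∈ S ↔ v ∈ (fun v => v ᵥ* (γ : Matrix (Fin 2) (Fin 2) ℤ)) '' S := by
    constructor
    · intro h
      exact ⟨_, h, (vecMulEquiv γ).right_inv v⟩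
    · rintro ⟨u, hu, rfl⟩
      have := (vecMulEquiv γ).left_inv u
      simp only [Equiv.toFun_as_coe, Equiv.invFun_as_coe, vecMulEquiv_apply,
        vecMulEquiv_symm_apply] at this
      rw [this]
      exact hu
  by_cases hv : v ᵥ* ↑(γ⁻¹) ∈ S
  · rw [Set.indicator_of_mem hv, Set.indicator_of_mem (hiff.mp hv)]
    rfl
  · rw [Set.indicator_of_notMem hv, Set.indicator_of_notMem (fun h => hv (hiff.mpr h))]

theorem mdiff_eisSet {k : ℤ} (hk : 3 ≤ k) (S : Set (Fin 2 → ℤ)) : MDiff (eisSet S k) := by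
  rw [eisSet_eq_wEis_indicator]
  exact Fermat.Agent.Lib.EisensteinChar.wEis_mdifferentiable (norm_indicator_one_le S) hk

theorem isBoundedAtImInfty_eisSet {k : ℤ} (hk : 3 ≤ k) (S : Set (Fin 2 → ℤ)) :
    IsBoundedAtImInfty (eisSet S k) := by
  rw [eisSet_eq_wEis_indicator]
  exact Fermat.Agent.Lib.EisensteinChar.isBoundedAtImInfty_wEis (norm_indicator_one_le S) hk

theorem exists_modularForm_eisSet {k : ℤ} (hk : 3 ≤ k) (S : Set (Fin 2 → ℤ))
    (Γ : Subgroup SL(2, ℤ))
    (hS : ∀ γ ∈ Γ, (fun v => v ᵥ* (γ : Matrix (Fin 2) (Fin 2) ℤ)) '' S = S) :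
    ∃ F : ModularForm (Γ : Subgroup (GL (Fin 2) ℝ)) k, (F : ℍ → ℂ) = eisSet S k := by
  refine ⟨{ toFun := eisSet S k
            slash_action_eq' := ?_
            holo' := mdiff_eisSet hk S
            bdd_at_cusps' := ?_ }, rfl⟩
  · intro A hA
    obtain ⟨A, hA, rfl⟩ := hA
    change eisSet S k ∣[k] A = _
    rw [eisSet_slash, hS A hA]
  · intro c hc
    have hc' : IsCusp c 𝒮ℒ := by
      refine hc.mono ?_
      rintro _ ⟨A, -, rfl⟩
      exact ⟨A, rfl⟩
    rw [OnePoint.isBoundedAt_iff_forall_SL2Z hc']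
    intro γ _
    rw [eisSet_slash]
    exact isBoundedAtImInfty_eisSet hk _

end Fermat.Agent.S48.IS
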