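/-
S48 node C (IntegralStructure), block C4: the weight 3 form `tB` on `Γ₁(N)`.
-/
import Mathlib
import Fermat.Agent.S23.Defs
import Fermat.Agent.S48.IS.Defs
import Fermat.Agent.S48.IS.EisSet
import Fermat.Agent.S48.IS.EisQ

set_option autoImplicit false

namespace Fermat.Agent.S48.IS

open UpperHalfPlane ModularForm CongruenceSubgroup EisensteinSeries Matrix Complex
open scoped MatrixGroups Manifold Real

/-! ### C4  TB.lean : the form `tB` on `Γ₁(N)` and its translates by `Γ₀(N)` -/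

/-- On `Γ₀(N)` the diagonal entries are inverse to each other modulo `N`. -/
theorem tb_diag_mul (N : ℕ) (γ : SL(2, ℤ)) (hγ : γ ∈ Gamma0 N) :
    ((γ 0 0 : ℤ) : ZMod N) * ((γ 1 1 : ℤ) : ZMod N) = 1 := by
  have hdet := Matrix.det_fin_two (γ : Matrix (Fin 2) (Fin 2) ℤ)
  rw [γ.det_coe] at hdet
  have h := congrArg (Int.cast : ℤ → ZMod N) hdet
  rw [Gamma0_mem] at hγ
  push_cast at h
  rw [hγ, mul_zero, sub_zero] at h
  exact h.symm

theorem tb_vecMul_zero (v : Fin 2 → ℤ) (M : Matrix (Fin 2) (Fin 2) ℤ) :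
    (v ᵥ* M) 0 = v 0 * M 0 0 + v 1 * M 1 0 := by
  simp [Matrix.vecMul, dotProduct, Fin.sum_univ_two]

theorem image_colSet (N : ℕ) (u : ZMod N) (γ : SL(2, ℤ)) (hγ : γ ∈ Gamma0 N) :
    (fun v => v ᵥ* (γ : Matrix (Fin 2) (Fin 2) ℤ)) '' colSet N u =
      colSet N (u * ((γ 0 0 : ℤ) : ZMod N)) := by
  have hγ' : ((γ 1 0 : ℤ) : ZMod N) = 0 := Gamma0_mem.1 hγ
  ext w
  constructor
  · rintro ⟨v, hv, rfl⟩
    have hv' : ((v 0 : ℤ) : ZMod N) = u := hv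
    show (((v ᵥ* (γ : Matrix (Fin 2) (Fin 2) ℤ)) 0 : ℤ) : ZMod N) = _
    rw [tb_vecMul_zero]
    push_cast
    rw [hv', hγ', mul_zero, add_zero]
  · intro hw
    have hw' : ((w 0 : ℤ) : ZMod N) = u * ((γ 0 0 : ℤ) : ZMod N) := hw
    refine ⟨w ᵥ* ((γ⁻¹ : SL(2, ℤ)) : Matrix (Fin 2) (Fin 2) ℤ), ?_, ?_⟩
    · show (((w ᵥ* ((γ⁻¹ : SL(2, ℤ)) : Matrix (Fin 2) (Fin 2) ℤ)) 0 : ℤ) : ZMod N) = u
      rw [tb_vecMul_zero, Matrix.SpecialLinearGroup.coe_inv, Matrix.adjugate_fin_two]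
      simp only [Matrix.of_apply, Matrix.cons_val_zero, Matrix.cons_val_one, Matrix.cons_val']
      push_cast
      rw [hw', hγ', neg_zero, mul_zero, add_zero, mul_assoc, tb_diag_mul N γ hγ, mul_one]
    · show (w ᵥ* ((γ⁻¹ : SL(2, ℤ)) : Matrix (Fin 2) (Fin 2) ℤ)) ᵥ* (γ : Matrix (Fin 2) (Fin 2) ℤ) = w
      rw [Matrix.vecMul_vecMul, ← Matrix.SpecialLinearGroup.coe_mul, inv_mul_cancel,
        Matrix.SpecialLinearGroup.coe_one, Matrix.vecMul_one]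

/-- The coefficient of `q` of the Eisenstein series. -/
theorem tb_cB_one (N : ℕ) (u : ZMod N) :
    cB N u 1 = (if (1 : ZMod N) = u then 1 else 0) - (if (1 : ZMod N) = -u then 1 else 0) := by
  simp [cB]

theorem tb_one_ne_neg_one (N : ℕ) (hN : 3 ≤ N) : (1 : ZMod N) ≠ -1 := by
  intro h
  have h2 : ((2 : ℕ) : ZMod N) = 0 := by
    have : (1 : ZMod N) + 1 = 0 := by
      nth_rewrite 1 [h]
      simp
    push_cast
    rw [← this]
    norm_num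
  rw [ZMod.natCast_eq_zero_iff] at h2
  have := Nat.le_of_dvd (by norm_num) h2
  omega

theorem tb_const_ne_zero : ((-2 * π * Complex.I) ^ 3 / 2 : ℂ) ≠ 0 := by
  have hπ : (π : ℂ) ≠ 0 := by exact_mod_cast Real.pi_ne_zero
  have hI : Complex.I ≠ 0 := Complex.I_ne_zero
  simp [hπ, hI]

/-- `exists_tB` with the nodes C2 (`eisSet_slash`, `exists_modularForm_eisSet`) and C3
(`coeff_qExpansion_eisSet_colSet`) as hypotheses. -/
theorem exists_tB_of_nodes (N : ℕ) [NeZero N] (hN : 3 ≤ N)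
    (eisSet_slash : ∀ (S : Set (Fin 2 → ℤ)) (k : ℤ) (γ : SL(2, ℤ)),
      eisSet S k ∣[k] γ = eisSet ((fun v => v ᵥ* (γ : Matrix (Fin 2) (Fin 2) ℤ)) '' S) k)
    (exists_modularForm_eisSet : ∀ {k : ℤ} (_ : 3 ≤ k) (S : Set (Fin 2 → ℤ))
      (Γ : Subgroup SL(2, ℤ))
      (_ : ∀ γ ∈ Γ, (fun v => v ᵥ* (γ : Matrix (Fin 2) (Fin 2) ℤ)) '' S = S),
      ∃ F : ModularForm (Γ : Subgroup (GL (Fin 2) ℝ)) k, (F : ℍ → ℂ) = eisSet S k)
    (coeff_qExpansion_eisSet_colSet : ∀ (N : ℕ) [NeZero N] (u : ZMod N) (_ : u ≠ 0) (m : ℕ),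
      (qExpansion 1 (eisSet (colSet N u) 3)).coeff m =
        (-2 * π * Complex.I) ^ 3 / 2 * (cB N u m : ℂ)) :
    ∃ tB : ModularForm (Gamma1 N : Subgroup (GL (Fin 2) ℝ)) 3, S23.IsQInt tB ∧ tB ≠ 0 ∧
      ∀ γ : SL(2, ℤ), γ ∈ Gamma0 N → (tB : ℍ → ℂ) ∣[(3 : ℤ)] γ = tB → γ ∈ Gamma1 N := by
  have : Fact (1 < N) := ⟨by omega⟩
  set C : ℂ := (-2 * π * Complex.I) ^ 3 / 2 with hC
  have hC0 : C ≠ 0 := tb_const_ne_zero
  obtain ⟨F, hF⟩ := exists_modularForm_eisSet (k := 3) le_rfl (colSet N 1) (Gamma1 N) (by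
    intro γ hγ
    rw [image_colSet N 1 γ (Gamma1_in_Gamma0 N hγ), ((Gamma1_mem N γ).1 hγ).1, one_mul])
  have hΓ : (1 : ℝ) ∈ (Gamma1 N : Subgroup (GL (Fin 2) ℝ)).strictPeriods := by simp
  have hcoe : ((C⁻¹ • F : ModularForm (Gamma1 N : Subgroup (GL (Fin 2) ℝ)) 3) : ℍ → ℂ) =
      C⁻¹ • eisSet (colSet N 1) 3 := by
    rw [FunLike.coe_smul, hF]
  have hcoeff : ∀ m, (qExpansion 1 (C⁻¹ • F : ModularForm (Gamma1 N : Subgroup (GL (Fin 2) ℝ)) 3)).coeff m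
      = (cB N 1 m : ℂ) := by
    intro m
    rw [FunLike.coe_smul, ModularForm.qExpansion_smul one_pos hΓ C⁻¹ F, PowerSeries.coeff_smul, hF,
      coeff_qExpansion_eisSet_colSet N 1 one_ne_zero m, smul_eq_mul, ← mul_assoc,
      inv_mul_cancel₀ hC0, one_mul]
  have hcB1 : cB N 1 1 = 1 := by
    rw [tb_cB_one, if_pos rfl, if_neg (tb_one_ne_neg_one N hN), sub_zero]
  refine ⟨C⁻¹ • F, fun m => ⟨cB N 1 m, hcoeff m⟩, ?_, ?_⟩
  · intro h0
    have h1 := hcoeff 1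
    rw [h0, hcB1] at h1
    have h2 : ((0 : ModularForm (Gamma1 N : Subgroup (GL (Fin 2) ℝ)) 3) : ℍ → ℂ) = 0 := rfl
    rw [h2, qExpansion_zero] at h1
    simp at h1
  · intro γ hγ hfix
    rw [hcoe, SL_smul_slash, eisSet_slash, image_colSet N 1 γ hγ, one_mul] at hfix
    have hfix' : eisSet (colSet N ((γ 0 0 : ℤ) : ZMod N)) 3 = eisSet (colSet N 1) 3 := by
      have := congrArg (fun f => C • f) hfix
      simpa [smul_smul, hC0] using this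
    have hdiag := tb_diag_mul N γ hγ
    have ha0 : ((γ 0 0 : ℤ) : ZMod N) ≠ 0 := by
      intro h
      rw [h, zero_mul] at hdiag
      exact zero_ne_one hdiag
    have h1 := coeff_qExpansion_eisSet_colSet N _ ha0 1
    rw [hfix', coeff_qExpansion_eisSet_colSet N 1 one_ne_zero 1] at h1
    have h2 : cB N ((γ 0 0 : ℤ) : ZMod N) 1 = 1 := by
      have h3 := mul_left_cancel₀ hC0 h1
      rw [hcB1] at h3
      exact_mod_cast h3.symm
    have ha : ((γ 0 0 : ℤ) : ZMod N) = 1 := by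
      rw [tb_cB_one] at h2
      by_contra hne
      rw [if_neg (fun h => hne h.symm)] at h2
      split_ifs at h2 <;> omega
    rw [Gamma1_mem]
    refine ⟨ha, ?_, Gamma0_mem.1 hγ⟩
    rw [ha, one_mul] at hdiag
    exact hdiag

theorem exists_tB (N : ℕ) [NeZero N] (hN : 3 ≤ N) :
    ∃ tB : ModularForm (Gamma1 N : Subgroup (GL (Fin 2) ℝ)) 3, S23.IsQInt tB ∧ tB ≠ 0 ∧
      ∀ γ : SL(2, ℤ), γ ∈ Gamma0 N → (tB : ℍ → ℂ) ∣[(3 : ℤ)] γ = tB → γ ∈ Gamma1 N :=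
  exists_tB_of_nodes N hN eisSet_slash (fun hk S Γ hS => exists_modularForm_eisSet hk S Γ hS)
    (fun N _ u hu m => coeff_qExpansion_eisSet_colSet N u hu m)

end Fermat.Agent.S48.IS
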