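/-
S48 node C / block C1 : the S23 machine for an arbitrary arithmetic group with a separating form.
Owner: helper21.
-/
import Mathlib
import Fermat.Agent.S23.Wire
import Fermat.Prelude.Thm_ModularForm_sturm_bound_of_isArithmetic

set_option autoImplicit false
set_option linter.unusedSectionVars false

namespace Fermat.Agent.S48.IS

open UpperHalfPlane ModularForm CongruenceSubgroup EisensteinSeries Matrix Complex
open scoped MatrixGroups Manifold Real

namespace General

open S23 S23.NiceQ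

variable {Γ : Subgroup (GL (Fin 2) ℝ)} [Γ.IsArithmetic] [Γ.HasDetOne] {k : ℤ}

/-- The `n`-th `q`-expansion coefficient of a cusp form as a linear functional. -/
noncomputable def coeffC (hΓ : (1 : ℝ) ∈ Γ.strictPeriods) (k : ℤ) (n : ℕ) :
    Module.Dual ℂ (CuspForm Γ k) where
  toFun f := (qExpansion 1 f).coeff n
  map_add' f g := by
    have h : ((f + g : CuspForm Γ k) : ℍ → ℂ) = (f : ℍ → ℂ) + g := rfl
    have h2 := Q_add (isNice_of_modularForm hΓ f) (isNice_of_modularForm hΓ g)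
    unfold Q at h2
    rw [h, h2, map_add]
  map_smul' c f := by
    have h : ((c • f : CuspForm Γ k) : ℍ → ℂ) = c • (f : ℍ → ℂ) := rfl
    have h2 := Q_smul c (isNice_of_modularForm hΓ f)
    unfold Q at h2
    rw [h, h2, PowerSeries.coeff_smul]
    rfl

@[simp] theorem coeffC_apply (hΓ : (1 : ℝ) ∈ Γ.strictPeriods) (n : ℕ) (f : CuspForm Γ k) :
    coeffC hΓ k n f = (qExpansion 1 f).coeff n := rfl

theorem eq_zero_of_forall_coeff (hΓ : (1 : ℝ) ∈ Γ.strictPeriods) (f : CuspForm Γ k)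
    (h : ∀ n, coeffC hΓ k n f = 0) : f = 0 := by
  have h0 : Q (f : ℍ → ℂ) = 0 := PowerSeries.ext fun n => by simpa using h n
  exact DFunLike.coe_injective ((Q_eq_zero_iff (isNice_of_modularForm hΓ f)).mp h0)

/-- the Sturm bound -/
noncomputable def sturm (Γ : Subgroup (GL (Fin 2) ℝ)) (k : ℤ) : ℕ := (k * Γ.relIndex 𝒮ℒ).toNat / 12

/-- truncation at the Sturm bound -/
noncomputable def trunc (hΓ : (1 : ℝ) ∈ Γ.strictPeriods) (k : ℤ) :
    CuspForm Γ k →ₗ[ℂ] (Fin (sturm Γ k + 1) → ℂ) :=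
  LinearMap.pi fun i => coeffC hΓ k i

theorem trunc_injective (hΓ : (1 : ℝ) ∈ Γ.strictPeriods) (k : ℤ) :
    Function.Injective (trunc (Γ := Γ) hΓ k) := by
  rw [injective_iff_map_eq_zero]
  intro f hf
  have h1 : ModularFormClass.modularForm f = 0 := by
    apply ModularForm.sturm_bound_of_isArithmetic hΓ
    change ((sturm Γ k : ℕ) : ℕ∞) < (qExpansion 1 (f : ℍ → ℂ)).order
    refine lt_of_lt_of_le (b := ((sturm Γ k + 1 : ℕ) : ℕ∞)) (by exact_mod_cast Nat.lt_succ_self _) ?_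
    apply PowerSeries.nat_le_order
    intro i hi
    exact congrFun hf ⟨i, hi⟩
  apply DFunLike.coe_injective
  exact congrArg (fun g : ModularForm Γ k => (g : ℍ → ℂ)) h1

theorem finiteDimensional (hΓ : (1 : ℝ) ∈ Γ.strictPeriods) (k : ℤ) :
    FiniteDimensional ℂ (CuspForm Γ k) :=
  FiniteDimensional.of_injective (trunc hΓ k) (trunc_injective hΓ k)

end General

open General in
theorem span_isQInt_eq_top {Γ : Subgroup (GL (Fin 2) ℝ)} [Γ.IsArithmetic] [Γ.HasDetOne] {w : ℤ}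
    (k : ℤ) (hΓ : (1 : ℝ) ∈ Γ.strictPeriods) (hle : Γ ≤ 𝒮ℒ) (t : ModularForm Γ w)
    (htQ : ∀ n, ∃ r : ℚ, (qExpansion 1 t).coeff n = (r : ℂ)) (htS : t ∈ S23.intSpan Γ w)
    (hsep : Function.Injective (SlashInvariantForm.quotientFunc (ℋ := 𝒮ℒ) t)) :
    Submodule.span ℂ {f : CuspForm Γ k | S23.IsQInt f} = ⊤ := by
  have := finiteDimensional (Γ := Γ) hΓ k
  have h := S23.Descent.span_rational_eq_top (coeffC hΓ k)
    (fun f hf => eq_zero_of_forall_coeff hΓ f hf) ?_
    S23.FixedFieldC.exists_rat_of_forall_ringHom_fixed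
  · rw [eq_top_iff, ← h, Submodule.span_le]
    intro f hf
    have hfn : S23.NiceQ.IsNice (f : ℍ → ℂ) := S23.NiceQ.isNice_of_modularForm hΓ f
    obtain ⟨s, hs0, -, -, hseq⟩ := S23.Sym.exists_monic_equation_cusp f
    obtain ⟨m, D, c, hD, hDeq⟩ := S23.Sym.exists_interpolation (ModularFormClass.modularForm f)
      t hsep
    obtain ⟨G, H, hG, hH, hG0, hGH⟩ := S23.Glue.hrel_of hΓ hfn t htS _ D c hD hDeq
    obtain ⟨a, ha, hroot⟩ := S23.Glue.hmonic_of hfn _ s hs0 hseq
    obtain ⟨E, hE, hEf⟩ := S23.BoundedDenominators.exists_int_mul_coeff_int (S23.NiceQ.Q f) hf G H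
      hG hH hG0 hGH _ a ha hroot
    have hEC : (E : ℂ) ≠ 0 := by exact_mod_cast hE
    have hmem : (E : ℂ) • f ∈ {f : CuspForm Γ k | S23.IsQInt f} := by
      intro n
      obtain ⟨b, hb⟩ := hEf n
      refine ⟨b, ?_⟩
      have := (coeffC hΓ k n).map_smul (E : ℂ) f
      simp only [coeffC_apply, smul_eq_mul] at this
      rw [this]
      exact hb
    have h2 : f = (E : ℂ)⁻¹ • ((E : ℂ) • f) := by
      rw [smul_smul, inv_mul_cancel₀ hEC, one_smul]
    rw [h2]
    exact Submodule.smul_mem _ _ (Submodule.subset_span hmem)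
  · intro σ f
    obtain ⟨s, hs0, -, hscusp, hseq⟩ := S23.Sym.exists_monic_equation_cusp f
    obtain ⟨m, D, c, hD, hDeq⟩ := S23.Sym.exists_interpolation (ModularFormClass.modularForm f)
      t hsep
    obtain ⟨F, hF⟩ := S23.Wire.hconj_of' hΓ hle σ f t htQ _ Nat.card_pos s hs0 hscusp
      hseq _ D c hD hDeq
    refine ⟨F, fun n => ?_⟩
    have := congrArg (PowerSeries.coeff n) hF
    rwa [PowerSeries.coeff_map] at this

end Fermat.Agent.S48.IS
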