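/-
S48 node C, block C5: the separating form `tB * tA ^ j` on `Γ₁(N)`.   Owner: helper11.
-/
import Mathlib
import Fermat.Agent.S23.Wire
import Fermat.Agent.S48.IS.Defs

set_option autoImplicit false

namespace Fermat.Agent.S48.IS

open UpperHalfPlane ModularForm CongruenceSubgroup EisensteinSeries Matrix Complex
open scoped MatrixGroups Manifold Real

/-- Variant of `S23.Sep.dvd_of_slash_eq`: only the absolute values agree. -/
theorem dvd_of_norm_slash_eq {k : ℤ} (hk : k ≠ 0) (f : ModularForm 𝒮ℒ k) {L : ℂ} (hL : L ≠ 0)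
    (hf : Filter.Tendsto f atImInfty (nhds L)) (N : ℕ) [NeZero N] (γ : SL(2, ℤ))
    (h : ∀ z, ‖(((f : ℍ → ℂ) ∣[k] S23.Sep.alpha N) ∣[k] γ) z‖ =
      ‖((f : ℍ → ℂ) ∣[k] S23.Sep.alpha N) z‖) : (N : ℤ) ∣ γ 1 0 := by
  obtain ⟨γ', β, g, D, hdec, h10, h11, hdet, hgD, hgc⟩ := S23.Sep.exists_decomp N γ
  have hNpos : (0 : ℝ) < N := by exact_mod_cast Nat.pos_of_ne_zero (NeZero.ne N)
  have e1 : ((f : ℍ → ℂ) ∣[k] S23.Sep.alpha N) ∣[k] γ = (f : ℍ → ℂ) ∣[k] β := by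
    rw [ModularForm.SL_slash, ← SlashAction.slash_mul]
    change (f : ℍ → ℂ) ∣[k] (S23.Sep.alpha N * Matrix.SpecialLinearGroup.mapGL ℝ γ) = _
    have hmem : Matrix.SpecialLinearGroup.mapGL ℝ γ' ∈ 𝒮ℒ := ⟨γ', rfl⟩
    rw [hdec, SlashAction.slash_mul, SlashInvariantForm.slash_action_eqn f _ hmem]
  have l1 := (S23.Sep.tendsto_slash_upper hf k h10 (by rw [hdet]; exact hNpos)).norm
  have l2 := (S23.Sep.tendsto_slash_upper hf k (S23.Sep.alpha_one_zero N)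
    (by rw [S23.Sep.alpha_det]; exact hNpos)).norm
  rw [← e1] at l1
  have l1' := l1.congr h
  have e2 := tendsto_nhds_unique l1' l2
  rw [hdet, S23.Sep.alpha_det, h11, S23.Sep.alpha_one_one] at e2
  have hNC : ((N : ℝ) : ℂ) ^ (k - 1) ≠ 0 := by
    apply zpow_ne_zero
    exact_mod_cast hNpos.ne'
  have e4 : ‖((D : ℝ) : ℂ)‖ ^ (-k) = 1 := by
    rw [norm_mul, norm_mul (L * _)] at e2
    have h0 : ‖L * ((N : ℝ) : ℂ) ^ (k - 1)‖ ≠ 0 := norm_ne_zero_iff.mpr (mul_ne_zero hL hNC)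
    have := mul_left_cancel₀ h0 e2
    rw [norm_zpow] at this
    simpa using this
  have e5 : ‖((D : ℝ) : ℂ)‖ = 1 := by
    by_contra hne
    exact (neg_ne_zero.mpr hk) ((zpow_eq_one_iff_right₀ (norm_nonneg _) hne).mp e4)
  have e6 : |D| = 1 := by
    have : |(D : ℝ)| = 1 := by simpa using e5
    exact_mod_cast this
  rcases (abs_eq (zero_le_one' ℤ)).mp e6 with h1 | h1
  · rw [h1, mul_one] at hgD
    rwa [hgD] at hgc
  · rw [h1] at hgD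
    have : g = -(N : ℤ) := by linarith
    rw [this] at hgc
    exact (neg_dvd).mp hgc

/-- slash of a power by an element of `SL(2, ℤ)` -/
theorem pow_slash_SL2 (k : ℤ) (γ : SL(2, ℤ)) (F : ℍ → ℂ) (n : ℕ) :
    (F ^ n) ∣[n * k] γ = (F ∣[k] γ) ^ n := by
  rw [ModularForm.SL_slash, ModularForm.SL_slash]
  exact S23.Sym.pow_slash_of_mem k ⟨γ, rfl⟩ F n

theorem mul_pow_slash_SL2 (a b : ℤ) (γ : SL(2, ℤ)) (tA tB : ℍ → ℂ) (j : ℕ) :
    (tB * tA ^ j) ∣[b + j * a] γ = (tB ∣[b] γ) * (tA ∣[a] γ) ^ j := by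
  rw [ModularForm.mul_slash_SL2, pow_slash_SL2]

/-- Pigeonhole: if `tA` has stabiliser `≤ G₀` even up to absolute values, `tB ≠ 0`, then for a
suitable `j` the stabiliser of `tB * tA ^ j` is contained in `G₀`. -/
theorem exists_pow_stabilizer_le {Γ : Subgroup SL(2, ℤ)} [Γ.FiniteIndex] (G₀ : Subgroup SL(2, ℤ))
    {a b : ℤ} (tA tB : ℍ → ℂ) (hA : MDiff tA) (hB : MDiff tB) (hB0 : tB ≠ 0) (hA0 : tA ≠ 0)
    (hAΓ : ∀ γ ∈ Γ, tA ∣[a] γ = tA) (hBΓ : ∀ γ ∈ Γ, tB ∣[b] γ = tB)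
    (hA' : ∀ γ : SL(2, ℤ), (∀ z, ‖(tA ∣[a] γ) z‖ = ‖tA z‖) → γ ∈ G₀) :
    ∃ j : ℕ, ∀ γ : SL(2, ℤ), (tB * tA ^ j) ∣[b + j * a] γ = tB * tA ^ j → γ ∈ G₀ := by
  by_contra hcon
  push Not at hcon
  choose γ hγ hγG using hcon
  -- pigeonhole on the classes of `γ j ⁻¹` in `SL(2, ℤ) ⧸ Γ`
  obtain ⟨j₁, j₂, hne, hcl⟩ := Finite.exists_ne_map_eq_of_infinite
    (fun j : ℕ => (QuotientGroup.mk (γ j)⁻¹ : SL(2, ℤ) ⧸ Γ))
  wlog hlt : j₁ < j₂ generalizing j₁ j₂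
  · exact this j₂ j₁ hne.symm hcl.symm (lt_of_le_of_ne (not_lt.mp hlt) hne.symm)
  have hδ : γ j₁ * (γ j₂)⁻¹ ∈ Γ := by
    have := QuotientGroup.eq.mp hcl
    simpa using this
  set δ := γ j₁ * (γ j₂)⁻¹ with hδdef
  have hγ1 : γ j₁ = δ * γ j₂ := by rw [hδdef]; group
  have hAeq : tA ∣[a] γ j₁ = tA ∣[a] γ j₂ := by
    rw [hγ1, SlashAction.slash_mul, hAΓ δ hδ]
  have hBeq : tB ∣[b] γ j₁ = tB ∣[b] γ j₂ := by
    rw [hγ1, SlashAction.slash_mul, hBΓ δ hδ]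
  set u := tA ∣[a] γ j₁ with hu
  set w := tB ∣[b] γ j₁ with hw
  have h1 : w * u ^ j₁ = tB * tA ^ j₁ := by
    rw [← mul_pow_slash_SL2]; exact hγ j₁
  have h2 : w * u ^ j₂ = tB * tA ^ j₂ := by
    rw [hAeq, hBeq, ← mul_pow_slash_SL2]; exact hγ j₂
  obtain ⟨m, hm0, hm⟩ : ∃ m : ℕ, m ≠ 0 ∧ j₂ = j₁ + m := ⟨j₂ - j₁, by omega, by omega⟩
  have hP : (tB * tA ^ j₁) * (u ^ m - tA ^ m) = 0 := by
    rw [mul_sub]
    nth_rewrite 1 [← h1]
    rw [mul_assoc, mul_assoc, ← pow_add, ← pow_add, ← hm, h2, sub_self]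
  have hApow : ∀ n : ℕ, MDiff (tA ^ n) := fun n => by
    induction n with
    | zero =>
      rw [pow_zero]
      exact (mdifferentiable_const : MDiff (fun _ : ℍ => (1 : ℂ)))
    | succ n ih => rw [pow_succ]; exact ih.mul hA
  have hU : MDiff u := hA.slash a _
  have hUpow : ∀ n : ℕ, MDiff (u ^ n) := fun n => by
    induction n with
    | zero =>
      rw [pow_zero]
      exact (mdifferentiable_const : MDiff (fun _ : ℍ => (1 : ℂ)))
    | succ n ih => rw [pow_succ]; exact ih.mul hU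
  have hApow0 : ∀ n : ℕ, tA ^ n ≠ 0 := fun n => by
    induction n with
    | zero => simp
    | succ n ih =>
      rw [pow_succ]
      intro h0
      rcases (UpperHalfPlane.mul_eq_zero_iff (hApow n) hA).1 h0 with h | h
      · exact ih h
      · exact hA0 h
  have hP0 : tB * tA ^ j₁ ≠ 0 := by
    intro h0
    rcases (UpperHalfPlane.mul_eq_zero_iff hB (hApow j₁)).1 h0 with h | h
    · exact hB0 h
    · exact hApow0 j₁ h
  have hpow : u ^ m = tA ^ m := by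
    rcases (UpperHalfPlane.mul_eq_zero_iff (hB.mul (hApow j₁)) ((hUpow m).sub (hApow m))).1 hP
      with h | h
    · exact absurd h hP0
    · exact sub_eq_zero.mp h
  apply hγG j₁
  apply hA'
  intro z
  have h3 : ‖u z‖ ^ m = ‖tA z‖ ^ m := by
    rw [← norm_pow, ← norm_pow]
    exact congrArg norm (congrFun hpow z)
  exact (pow_left_inj₀ (norm_nonneg _) (norm_nonneg _) hm0).mp h3

/-- rational power series as a subring -/
theorem mem_range_map_iff (P : PowerSeries ℂ) :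
    P ∈ (PowerSeries.map (algebraMap ℚ ℂ)).range ↔ ∀ n, ∃ r : ℚ, P.coeff n = (r : ℂ) := by
  constructor
  · rintro ⟨Q, rfl⟩ n
    exact ⟨Q.coeff n, by simp⟩
  · intro h
    choose F hF using h
    exact ⟨PowerSeries.mk F, PowerSeries.ext fun n => by simp [hF]⟩

/-- `exists_sepForm`, with the output of block C4 as a hypothesis. -/
theorem exists_sepForm_of_tB (N : ℕ) [NeZero N]
    (hTB : ∃ tB : ModularForm (Gamma1 N : Subgroup (GL (Fin 2) ℝ)) 3, S23.IsQInt tB ∧ tB ≠ 0 ∧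
      ∀ γ : SL(2, ℤ), γ ∈ Gamma0 N → (tB : ℍ → ℂ) ∣[(3 : ℤ)] γ = tB → γ ∈ Gamma1 N) :
    ∃ (w : ℤ) (t : ModularForm (Gamma1 N : Subgroup (GL (Fin 2) ℝ)) w),
      (∀ n, ∃ r : ℚ, (qExpansion 1 t).coeff n = (r : ℂ)) ∧
      t ∈ S23.intSpan (Gamma1 N : Subgroup (GL (Fin 2) ℝ)) w ∧
      Function.Injective (SlashInvariantForm.quotientFunc (ℋ := 𝒮ℒ) t) := by
  obtain ⟨tB, hBQ, hB0, hBstab⟩ := hTB
  have hle : (Gamma1 N : Subgroup (GL (Fin 2) ℝ)) ≤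
      Subgroup.map (Matrix.SpecialLinearGroup.mapGL ℝ) (Gamma0 N) :=
    Subgroup.map_mono (Gamma1_in_Gamma0 N)
  have hΓ : (1 : ℝ) ∈ (Gamma1 N : Subgroup (GL (Fin 2) ℝ)).strictPeriods := by
    rw [strictPeriods_Gamma1]
    exact AddSubgroup.mem_zmultiples 1
  set tA : ModularForm (Gamma1 N : Subgroup (GL (Fin 2) ℝ)) 4 :=
    S23.restrict hle (S23.LevelN.tN N) with htA
  have hcoeA : (tA : ℍ → ℂ) = (E₄ : ℍ → ℂ) ∣[(4 : ℤ)] S23.Sep.alpha N := by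
    rw [htA, S23.coe_restrict, S23.LevelN.coe_tN, S23.Sep.alpha_eq]
  have hNpos : (0 : ℝ) < N := by exact_mod_cast Nat.pos_of_ne_zero (NeZero.ne N)
  have hA0 : (tA : ℍ → ℂ) ≠ 0 := by
    intro h0
    have l2 := S23.Sep.tendsto_slash_upper S23.Sep.tendsto_E₄ 4 (S23.Sep.alpha_one_zero N)
      (by rw [S23.Sep.alpha_det]; exact hNpos)
    rw [← hcoeA, h0] at l2
    have l3 : Filter.Tendsto (0 : ℍ → ℂ) atImInfty (nhds 0) := tendsto_const_nhds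
    have e := tendsto_nhds_unique l3 l2
    rw [S23.Sep.alpha_det, S23.Sep.alpha_one_one] at e
    have hNC : ((N : ℝ) : ℂ) ^ ((4 : ℤ) - 1) ≠ 0 := by
      apply zpow_ne_zero
      exact_mod_cast hNpos.ne'
    apply hNC
    simpa using e.symm
  have hB0' : (tB : ℍ → ℂ) ≠ 0 := fun h => hB0 (DFunLike.coe_injective h)
  have hA' : ∀ γ : SL(2, ℤ), (∀ z, ‖((tA : ℍ → ℂ) ∣[(4 : ℤ)] γ) z‖ = ‖tA z‖) → γ ∈ Gamma0 N := by
    intro γ h
    rw [hcoeA] at h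
    have := dvd_of_norm_slash_eq (by norm_num) E₄ one_ne_zero S23.Sep.tendsto_E₄ N γ h
    rw [Gamma0_mem]
    exact (ZMod.intCast_zmod_eq_zero_iff_dvd _ _).mpr this
  have hA0stab : ∀ γ ∈ Gamma0 N, (tA : ℍ → ℂ) ∣[(4 : ℤ)] γ = tA := by
    intro γ hγ
    rw [ModularForm.SL_slash]
    exact SlashInvariantForm.slash_action_eqn (S23.LevelN.tN N) _ (Subgroup.mem_map_of_mem _ hγ)
  have hAΓ : ∀ γ ∈ Gamma1 N, (tA : ℍ → ℂ) ∣[(4 : ℤ)] γ = tA :=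
    fun γ hγ => hA0stab γ (Gamma1_in_Gamma0 N hγ)
  have hBΓ : ∀ γ ∈ Gamma1 N, (tB : ℍ → ℂ) ∣[(3 : ℤ)] γ = tB := by
    intro γ hγ
    rw [ModularForm.SL_slash]
    exact SlashInvariantForm.slash_action_eqn tB _ (Subgroup.mem_map_of_mem _ hγ)
  obtain ⟨j, hj⟩ := exists_pow_stabilizer_le (Γ := Gamma1 N) (Gamma0 N) (a := 4) (b := 3)
    (tA : ℍ → ℂ) (tB : ℍ → ℂ) tA.holo' tB.holo' hB0' hA0 hAΓ hBΓ hA'
  have hcoe : ((tB.mul (tA.pow j) : ModularForm _ (3 + j * 4)) : ℍ → ℂ) =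
      (tB : ℍ → ℂ) * (tA : ℍ → ℂ) ^ j := by
    rw [ModularForm.coe_mul, ModularForm.coe_pow]
  refine ⟨3 + j * 4, tB.mul (tA.pow j), ?_, ?_, ?_⟩
  · rw [← mem_range_map_iff, ModularForm.qExpansion_mul one_pos hΓ,
      ModularForm.qExpansion_pow one_pos hΓ]
    refine mul_mem ?_ (pow_mem ?_ j)
    · rw [mem_range_map_iff]
      intro n
      obtain ⟨m, hm⟩ := hBQ n
      exact ⟨m, by rw [hm]; simp⟩
    · rw [mem_range_map_iff]
      exact S23.Wire.tN_rat N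
  · exact S23.mul_mem_intSpan hΓ (S23.subset_intSpan hBQ)
      (S23.pow_mem_intSpan hΓ (S23.restrict_mem_intSpan hle (S23.LevelN.tN_mem_intSpan N)) j)
  · apply S23.Sym.injective_quotientFunc_of_stabilizer
    rintro _ ⟨γ, rfl⟩ hg
    rw [hcoe] at hg
    have hg' : ((tB : ℍ → ℂ) * (tA : ℍ → ℂ) ^ j) ∣[(3 : ℤ) + j * 4] γ =
        (tB : ℍ → ℂ) * (tA : ℍ → ℂ) ^ j := hg
    have hγ0 : γ ∈ Gamma0 N := hj γ hg'
    rw [mul_pow_slash_SL2, hA0stab γ hγ0] at hg'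
    have hApow : ∀ n : ℕ, MDiff ((tA : ℍ → ℂ) ^ n) := fun n => by
      rw [← ModularForm.coe_pow]
      exact (tA.pow n).holo'
    have hApow0 : (tA : ℍ → ℂ) ^ j ≠ 0 := by
      clear hg' hg hj hcoe
      induction j with
      | zero => simp
      | succ n ih =>
        rw [pow_succ]
        intro h0
        rcases (UpperHalfPlane.mul_eq_zero_iff (hApow n) tA.holo').1 h0 with h | h
        · exact ih h
        · exact hA0 h
    have h1 : ((tB : ℍ → ℂ) ∣[(3 : ℤ)] γ - tB) * (tA : ℍ → ℂ) ^ j = 0 := by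
      rw [sub_mul, hg', sub_self]
    have h2 : (tB : ℍ → ℂ) ∣[(3 : ℤ)] γ = tB := by
      rcases (UpperHalfPlane.mul_eq_zero_iff ((tB.holo'.slash 3 _).sub tB.holo') (hApow j)).1 h1
        with h | h
      · exact sub_eq_zero.mp h
      · exact absurd h hApow0
    exact Subgroup.mem_map_of_mem _ (hBstab γ hγ0 h2)

end Fermat.Agent.S48.IS
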