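/-
S48 node C: the integral structure of `S_k(Γ₁(N))` for every weight `k` and every level `N`.
Owner: helper228.
-/
import Fermat.Agent.S48.IS.General
import Fermat.Agent.S48.IS.TB
import Fermat.Agent.S48.IS.Sep
import Fermat.Agent.S48.Nodes

set_option autoImplicit false

namespace Fermat.Agent.S48.IS

open UpperHalfPlane ModularForm CongruenceSubgroup Matrix
open scoped MatrixGroups Manifold

theorem one_mem_strictPeriods_Gamma1 (N : ℕ) :
    (1 : ℝ) ∈ (Gamma1 N : Subgroup (GL (Fin 2) ℝ)).strictPeriods := by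
  rw [strictPeriods_Gamma1]
  exact AddSubgroup.mem_zmultiples 1

/-- For `N ≤ 2` every unit of `ZMod N` is `1`, so `Γ₀(N) ≤ Γ₁(N)`. -/
theorem Gamma0_le_Gamma1_of_le_two (N : ℕ) [NeZero N] (hN : N ≤ 2) : Gamma0 N ≤ Gamma1 N := by
  intro γ hγ
  have h10 : ((γ 1 0 : ℤ) : ZMod N) = 0 := Gamma0_mem.mp hγ
  have hdet : γ 0 0 * γ 1 1 - γ 0 1 * γ 1 0 = 1 := by
    have := γ.det_coe
    rwa [Matrix.det_fin_two] at this
  have hdet' : ((γ 0 0 : ℤ) : ZMod N) * ((γ 1 1 : ℤ) : ZMod N) = 1 := by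
    have := congrArg (Int.cast : ℤ → ZMod N) hdet
    push_cast at this
    rw [h10, mul_zero, sub_zero] at this
    exact this
  have hN0 : N ≠ 0 := NeZero.ne N
  have key : ∀ x y : ZMod N, x * y = 1 → x = 1 ∧ y = 1 := by
    have hN' : N = 1 ∨ N = 2 := by omega
    rcases hN' with rfl | rfl
    · intro x y _
      exact ⟨Subsingleton.elim _ _, Subsingleton.elim _ _⟩
    · decide
  obtain ⟨h00, h11⟩ := key _ _ hdet'
  rw [Gamma1_mem]
  exact ⟨h00, h11, h10⟩

/-- The separating form for `3 ≤ N`. -/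
theorem exists_sepForm (N : ℕ) [NeZero N] (hN : 3 ≤ N) :
    ∃ (w : ℤ) (t : ModularForm (Gamma1 N : Subgroup (GL (Fin 2) ℝ)) w),
      (∀ n, ∃ r : ℚ, (qExpansion 1 t).coeff n = (r : ℂ)) ∧
      t ∈ S23.intSpan (Gamma1 N : Subgroup (GL (Fin 2) ℝ)) w ∧
      Function.Injective (SlashInvariantForm.quotientFunc (ℋ := 𝒮ℒ) t) :=
  exists_sepForm_of_tB N (exists_tB N hN)

/-- The separating form for `N ≤ 2`: here `Γ₁(N) = Γ₀(N)` and the form of S23 works. -/
theorem exists_sepForm_of_le_two (N : ℕ) [NeZero N] (hN : N ≤ 2) :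
    ∃ (w : ℤ) (t : ModularForm (Gamma1 N : Subgroup (GL (Fin 2) ℝ)) w),
      (∀ n, ∃ r : ℚ, (qExpansion 1 t).coeff n = (r : ℂ)) ∧
      t ∈ S23.intSpan (Gamma1 N : Subgroup (GL (Fin 2) ℝ)) w ∧
      Function.Injective (SlashInvariantForm.quotientFunc (ℋ := 𝒮ℒ) t) := by
  have hle : (Gamma1 N : Subgroup (GL (Fin 2) ℝ)) ≤
      Subgroup.map (Matrix.SpecialLinearGroup.mapGL ℝ) (Gamma0 N) :=
    Subgroup.map_mono (Gamma1_in_Gamma0 N)
  refine ⟨4, S23.restrict hle (S23.LevelN.tN N), S23.Wire.tN_rat N,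
    S23.restrict_mem_intSpan hle (S23.LevelN.tN_mem_intSpan N), ?_⟩
  apply S23.Sym.injective_quotientFunc_of_stabilizer
  rintro _ ⟨γ, rfl⟩ hg
  rw [S23.coe_restrict, S23.LevelN.coe_tN, S23.Sep.alpha_eq] at hg
  have h := S23.Sep.dvd_of_slash_eq (by norm_num) E₄ one_ne_zero S23.Sep.tendsto_E₄ N γ hg
  have hγ0 : γ ∈ Gamma0 N := by
    rw [Gamma0_mem]
    exact (ZMod.intCast_zmod_eq_zero_iff_dvd _ _).mpr h
  exact Subgroup.mem_map_of_mem _ (Gamma0_le_Gamma1_of_le_two N hN hγ0)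

/-- `S_k(Γ₁(N))` is spanned by the forms with integral `q`-expansion, for all `k` and `N`. -/
theorem span_isQInt_Gamma1_eq_top (N : ℕ) [NeZero N] (k : ℤ) :
    Submodule.span ℂ {f : CuspForm (Gamma1 N : Subgroup (GL (Fin 2) ℝ)) k | S23.IsQInt f} = ⊤ := by
  have H : ∃ (w : ℤ) (t : ModularForm (Gamma1 N : Subgroup (GL (Fin 2) ℝ)) w),
      (∀ n, ∃ r : ℚ, (qExpansion 1 t).coeff n = (r : ℂ)) ∧
      t ∈ S23.intSpan (Gamma1 N : Subgroup (GL (Fin 2) ℝ)) w ∧
      Function.Injective (SlashInvariantForm.quotientFunc (ℋ := 𝒮ℒ) t) := by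
    rcases Nat.lt_or_ge N 3 with h | h
    · exact exists_sepForm_of_le_two N (by omega)
    · exact exists_sepForm N h
  obtain ⟨w, t, htQ, htS, hsep⟩ := H
  exact span_isQInt_eq_top k (one_mem_strictPeriods_Gamma1 N) (Subgroup.map_le_range _ _) t htQ htS
    hsep

/-- **Integral structure of `S_k(Γ₁(N))`**, in the shape of the node `IntegralStructure`, for every
weight. -/
theorem integralStructure_weight (N : ℕ) [NeZero N] (k : ℤ) (f : CuspForm (Gamma1 N) k) :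
    ∃ (m : ℕ) (b : Fin m → CuspForm (Gamma1 N) k) (c : Fin m → ℂ),
      (∀ i n, ∃ z : ℤ, ModularFormClass.qCoeff (b i) n = z) ∧ f = ∑ i, c i • b i := by
  have hf : f ∈ Submodule.span ℂ
      {f : CuspForm (Gamma1 N : Subgroup (GL (Fin 2) ℝ)) k | S23.IsQInt f} := by
    rw [span_isQInt_Gamma1_eq_top N k]
    exact Submodule.mem_top
  obtain ⟨m, c, g, hg⟩ := Submodule.mem_span_set'.1 hf
  exact ⟨m, fun i => (g i : CuspForm (Gamma1 N) k), c, fun i n => (g i).2 n, hg.symm⟩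

/-- The node `IntegralStructure` (weight one). -/
theorem integralStructure_one : IntegralStructure := fun N _ f => integralStructure_weight N 1 f

end Fermat.Agent.S48.IS
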