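/-
S48 node C (IntegralStructure), block C6: final assembly.  Owner: helper159.
(`exists_tB` lives in TB.lean, `exists_sepForm` in Weight.lean: duplicates removed by helper228.)
-/
import Fermat.Agent.S48.IS.General
import Fermat.Agent.S48.IS.EisSet
import Fermat.Agent.S48.IS.EisQ
import Fermat.Agent.S48.IS.TB
import Fermat.Agent.S48.IS.Sep
import Fermat.Agent.S48.IS.Weight
import Fermat.Agent.S48.Nodes

set_option autoImplicit false

namespace Fermat.Agent.S48.IS

open UpperHalfPlane ModularForm CongruenceSubgroup EisensteinSeries Matrix Complex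
open scoped MatrixGroups Manifold Real

theorem final_neg_one_mem_Gamma1 (N : ℕ) (hN0 : N ≠ 0) (hN : N ≤ 2) :
    (-1 : SL(2, ℤ)) ∈ Gamma1 N := by
  rw [Gamma1_mem]
  have h : N = 1 ∨ N = 2 := by omega
  rcases h with rfl | rfl
  · refine ⟨Subsingleton.elim _ _, Subsingleton.elim _ _, Subsingleton.elim _ _⟩
  · simp

theorem eq_zero_of_le_two (N : ℕ) [NeZero N] (hN : N ≤ 2) (f : CuspForm (Gamma1 N) 1) : f = 0 := by
  have hmem := final_neg_one_mem_Gamma1 N (NeZero.ne N) hN
  have h1 : (f : ℍ → ℂ) ∣[(1 : ℤ)] (-1 : SL(2, ℤ)) = f := by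
    apply SlashInvariantFormClass.slash_action_eq f
    exact Subgroup.mem_map_of_mem _ hmem
  ext z
  have h2 := congrFun h1 z
  rw [ModularForm.SL_slash_apply] at h2
  simp [UpperHalfPlane.denom] at h2
  show f z = 0
  linear_combination (-1 / 2 : ℂ) * h2

theorem integralStructure : IntegralStructure := by
  intro N _ f
  by_cases hN : N ≤ 2
  · refine ⟨0, Fin.elim0, Fin.elim0, fun i => i.elim0, ?_⟩
    rw [eq_zero_of_le_two N hN f]
    simp
  · have hN3 : 3 ≤ N := by omega
    obtain ⟨w, t, htQ, htS, hsep⟩ := exists_sepForm N hN3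
    have hΓ : (1 : ℝ) ∈ ((Gamma1 N : Subgroup (GL (Fin 2) ℝ))).strictPeriods := by
      simp [CongruenceSubgroup.strictPeriods_Gamma1]
    have htop := span_isQInt_eq_top (Γ := (Gamma1 N : Subgroup (GL (Fin 2) ℝ))) 1 hΓ
      (Subgroup.map_le_range _ _) t htQ htS hsep
    have hf : f ∈ Submodule.span ℂ
        {f : CuspForm (Gamma1 N : Subgroup (GL (Fin 2) ℝ)) 1 | S23.IsQInt f} := by
      rw [htop]
      trivial
    obtain ⟨n, c, g, hg⟩ := Submodule.mem_span_set'.1 hf
    exact ⟨n, fun i => (g i).1, c, fun i m => (g i).2 m, hg.symm⟩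

end Fermat.Agent.S48.IS
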